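import Fermat.Agent.LambdaHecke.Family
import Mathlib.LinearAlgebra.Dual.Basis

/-!
# Hida's duality

Off the class `0` the first coefficient of `h F` is a perfect pairing between the Hecke algebra and
the ordinary families: the higher coefficients of a form control the constant.
-/

set_option autoImplicit false
set_option linter.unusedSectionVars false

noncomputable section

open PowerSeries Filter Topology Matrix

namespace FA.LambdaHecke

open FA.PadicForms FA.OrdinaryProj FA.LambdaForms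

variable {p : ℕ} [Fact p.Prime] {hp2 : p ≠ 2} {c : ZMod (p - 1)}

local notation "Λ" => PowerSeries ℤ_[p]

/-- The `n`-th coefficient of a family. -/
def coefL (hp2 : p ≠ 2) (c : ZMod (p - 1)) (n : ℕ) :
    Module.Dual (PowerSeries ℤ_[p]) ↥(lamOrd hp2 c) :=
  (PowerSeries.coeff n).comp (lamOrd hp2 c).subtype

theorem coefL_apply (n : ℕ) (F : ↥(lamOrd hp2 c)) :
    coefL hp2 c n F = coeff n (F : PowerSeries Λ) := rfl

/-- `h ↦ (F ↦ a₁ (h F))`. -/
def pairing (hp2 : p ≠ 2) (c : ZMod (p - 1)) :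
    ↥(heckeAlg hp2 c) →ₗ[PowerSeries ℤ_[p]] Module.Dual (PowerSeries ℤ_[p]) ↥(lamOrd hp2 c) where
  toFun h := (coefL hp2 c 1).comp (h : Module.End (PowerSeries ℤ_[p]) ↥(lamOrd hp2 c))
  map_add' g h := LinearMap.ext fun F => by
    simp only [LinearMap.comp_apply, LinearMap.add_apply, Subalgebra.coe_add, map_add]
  map_smul' a h := LinearMap.ext fun F => by
    simp only [LinearMap.comp_apply, LinearMap.smul_apply, Subalgebra.coe_smul, map_smul,
      RingHom.id_apply]

theorem pairing_apply (h : ↥(heckeAlg hp2 c)) (F : ↥(lamOrd hp2 c)) :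
    pairing hp2 c h F =
      coeff 1 ((h : Module.End (PowerSeries ℤ_[p]) ↥(lamOrd hp2 c)) F : PowerSeries Λ) := rfl

/-- `a₁ ((g h) F) = a₁ (g (h F))`. -/
theorem pairing_mul (g h : ↥(heckeAlg hp2 c)) (F : ↥(lamOrd hp2 c)) :
    pairing hp2 c (g * h) F =
      pairing hp2 c g ((h : Module.End (PowerSeries ℤ_[p]) ↥(lamOrd hp2 c)) F) := rfl

/-- **The operators `T_n`**: every coefficient of positive index comes from the algebra. -/
theorem coefL_mem_range (h5 : 5 ≤ p) {n : ℕ} (hn : 1 ≤ n) :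
    coefL hp2 c n ∈ LinearMap.range (pairing hp2 c) := by
  induction n using Nat.strong_induction_on with
  | _ n ih =>
  rcases hn.eq_or_lt with rfl | hn2
  · exact ⟨1, rfl⟩
  obtain ⟨l, hl, m, rfl⟩ : ∃ l, l.Prime ∧ l ∣ n := ⟨n.minFac, Nat.minFac_prime (by omega),
    n.minFac_dvd⟩
  have hm : 1 ≤ m := Nat.pos_of_ne_zero fun e => by simp [e] at hn
  have hml : m < l * m := lt_mul_of_one_lt_left hm hl.one_lt
  obtain ⟨A, hA⟩ := ih m hml hm
  rcases eq_or_ne l p with rfl | hlp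
  · obtain ⟨U, hU, hUe⟩ := exists_uGen (hp2 := hp2) (c := c) h5
    refine ⟨A * ⟨U, hU⟩, LinearMap.ext fun F => ?_⟩
    rw [pairing_mul, hA, coefL_apply, coefL_apply, hUe, coeff_uSer]
  · obtain ⟨T, hT, hTe⟩ := exists_tGen (hp2 := hp2) (c := c) h5 hl hlp
    by_cases hlm : l ∣ m
    · have hq : 1 ≤ m / l := Nat.div_pos (Nat.le_of_dvd hm hlm) hl.pos
      obtain ⟨B, hB⟩ := ih (m / l) ((Nat.div_le_self m l).trans_lt hml) hq
      refine ⟨A * ⟨T, hT⟩ - thetaLam c l • B, LinearMap.ext fun F => ?_⟩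
      rw [map_sub, map_smul, LinearMap.sub_apply, LinearMap.smul_apply, pairing_mul, hA, hB,
        coefL_apply, coefL_apply, coefL_apply, hTe, coeff_tSer, if_pos hlm, mul_comm l m,
        smul_eq_mul, add_sub_cancel_right]
    · refine ⟨A * ⟨T, hT⟩, LinearMap.ext fun F => ?_⟩
      rw [pairing_mul, hA, coefL_apply, coefL_apply, hTe, coeff_tSer, if_neg hlm, add_zero,
        mul_comm l m]

/-- Off the class `0` the constant of an integral form is controlled by the others. -/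
theorem dvd_of_higher (h5 : 5 ≤ p) (hc0 : c ≠ 0) {s : ℤ_[p]} {g : PowerSeries ℤ_[p]}
    (hg : IsIntForm ((c, s) : Weights p) g) {a : ℕ}
    (h : ∀ n, 1 ≤ n → (p : ℤ_[p]) ^ a ∣ coeff n g) : (p : PowerSeries ℤ_[p]) ^ a ∣ g := by
  rw [FA.OrdinaryProj.pow_dvd_iff]
  intro n
  rcases Nat.eq_zero_or_pos n with rfl | hn
  · have hb := hg.constant_le h5 (m := 0) (fun hn => hc0 (by
      have e := hn.1
      rwa [Nat.cast_zero, eq_comm] at e))
      (zpow_pos' (p := p) (-(a : ℤ))).le (fun n hn => by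
        rw [coeff_toQps, ← PadicInt.norm_def]
        exact norm_le_iff_dvd.2 (h n (Nat.pos_of_ne_zero hn)))
    rw [coeff_toQps, Nat.cast_zero, zpow_zero, one_mul, ← PadicInt.norm_def] at hb
    exact norm_le_iff_dvd.1 hb
  · exact h n hn

/-- **A family is determined by its higher coefficients.** -/
theorem eq_zero_of_higher (h5 : 5 ≤ p) (hc0 : c ≠ 0) {F : PowerSeries (PowerSeries ℤ_[p])}
    (hF : IsLamOrd hp2 c F) (h : ∀ n, 1 ≤ n → coeff n F = 0) : F = 0 := by
  refine eq_of_spec (hp2 := hp2) fun s => ?_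
  rw [map_zero]
  refine toQps_injective ?_
  rw [map_zero]
  exact (hF s).1.eq_of_higher h5 (isPadicForm_zero h5 _)
    (fun e => hc0 (congrArg Prod.fst e))
    fun n hn => by simp [h n (Nat.pos_of_ne_zero hn)]

/-- The pairing is injective in the algebra. -/
theorem pairing_injective (h5 : 5 ≤ p) (hc0 : c ≠ 0) :
    Function.Injective (pairing hp2 c) := by
  refine LinearMap.ker_eq_bot.1 (LinearMap.ker_eq_bot'.2 fun h hh => Subtype.ext ?_)
  refine LinearMap.ext fun F => Subtype.ext ?_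
  refine eq_zero_of_higher h5 hc0 ((mem_lamOrd h5).1 (Subtype.coe_prop _)) fun n hn => ?_
  obtain ⟨A, hA⟩ := coefL_mem_range (hp2 := hp2) (c := c) h5 hn
  rw [← coefL_apply, ← hA, ← pairing_mul, mul_comm, pairing_mul, hh, LinearMap.zero_apply]

/-- Residues of the higher coefficients of a basis are independent. -/
theorem higher_independent (h5 : 5 ≤ p) (hc0 : c ≠ 0) {r : ℕ}
    {G : Fin r → PowerSeries (PowerSeries ℤ_[p])} (hG : ∀ j, IsLamOrd hp2 c (G j))
    (hu : ∀ g, IsIntForm ((c, 0) : Weights p) g → ordProj p (toQps p g) = toQps p g →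
      ∃! x : Fin r → ℤ_[p], g = ∑ j, C (x j) * spec hp2 0 (G j)) :
    LinearIndependent (ZMod p) fun (j : Fin r) (n : ℕ) =>
      PadicInt.toZMod (coeff (n + 1) (spec hp2 0 (G j))) := by
  rw [Fintype.linearIndependent_iff]
  intro x hx
  obtain ⟨g, hg⟩ : ∃ g, g = ∑ j, C (((x j).val : ℕ) : ℤ_[p]) * spec hp2 0 (G j) := ⟨_, rfl⟩
  have hmem : toQps p g ∈ ordPart ((c, 0) : Weights p) := by
    rw [hg, map_sum]
    refine Submodule.sum_mem _ fun j _ => ?_
    rw [map_mul, toQps, map_C, ← PowerSeries.smul_eq_C_mul]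
    exact Submodule.smul_mem _ _ ((hG j).mem_ordPart h5 0)
  have hdvd : (p : PowerSeries ℤ_[p]) ∣ g := by
    have := dvd_of_higher h5 hc0 ((FA.OrdinaryProj.mem_ordPart h5).1 hmem).1 (a := 1) fun n hn => by
      obtain ⟨n, rfl⟩ : ∃ n', n = n' + 1 := ⟨n - 1, by omega⟩
      rw [pow_one, ← PadicInt.norm_lt_one_iff_dvd, ← FA.PadicIwasawa.toZMod_eq_zero_iff_norm, hg,
        map_sum, map_sum]
      have h3 := congrFun hx n
      rw [Finset.sum_apply] at h3
      refine (Finset.sum_congr rfl fun j _ => ?_).trans h3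
      rw [coeff_C_mul, map_mul, map_natCast, ZMod.natCast_zmod_val, Pi.smul_apply, smul_eq_mul]
    rwa [pow_one] at this
  obtain ⟨q, hq⟩ := hdvd
  have hqmem : toQps p q ∈ ordPart ((c, 0) : Weights p) := by
    have e : toQps p q = C ((p : ℚ_[p])⁻¹) * toQps p g := by
      rw [hq, map_mul, map_natCast, ← mul_assoc, ← map_natCast (C (R := ℚ_[p])), ← map_mul,
        inv_mul_cancel₀ (Nat.cast_ne_zero.2 (Fact.out : p.Prime).ne_zero), map_one, one_mul]
    rw [e, ← PowerSeries.smul_eq_C_mul]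
    exact Submodule.smul_mem _ _ hmem
  obtain ⟨y, hy, -⟩ := hu q ((FA.OrdinaryProj.mem_ordPart h5).1 hqmem).1
    ((FA.OrdinaryProj.mem_ordPart h5).1 hqmem).2
  obtain ⟨hgm, hge⟩ := (FA.OrdinaryProj.mem_ordPart h5).1 hmem
  have huniq := (hu g hgm hge).unique hg (y₂ := fun j => (p : ℤ_[p]) * y j) (by
    rw [hq, hy, Finset.mul_sum]
    exact Finset.sum_congr rfl fun j _ => by rw [map_mul, map_natCast, mul_assoc])
  intro j
  have h1 := congrArg PadicInt.toZMod (congrFun huniq j)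
  rw [map_natCast, map_mul, map_natCast, ZMod.natCast_self, zero_mul, ZMod.natCast_zmod_val] at h1
  exact h1

/-- **The higher coefficients span the dual of the ordinary families.** -/
theorem dual_eq_span (h5 : 5 ≤ p) (hc0 : c ≠ 0) :
    Submodule.span Λ (Set.range fun n => coefL hp2 c (n + 1)) = ⊤ := by
  classical
  refine eq_top_iff.2 fun φ _ => ?_
  have : NeZero (p - 1) := ⟨by omega⟩
  obtain ⟨k, hk, hc⟩ : ∃ k : ℕ, 3 ≤ k ∧ (k : ZMod (p - 1)) = c := ⟨c.val + (p - 1), by omega, by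
    rw [Nat.cast_add, ZMod.natCast_self, add_zero, ZMod.natCast_zmod_val]⟩
  obtain ⟨G, hG, -, hsp, -, hu, -⟩ := exists_lambda_basis (hp2 := hp2) h5 hk hc
  have hind := higher_independent h5 hc0 hG (hu 0)
  have hdual : ∀ i, ∃ a : ℕ →₀ ZMod p, ∀ j,
      coeffComb a (PowerSeries.mk fun n =>
        PadicInt.toZMod (coeff (n + 1) (spec hp2 0 (G j)))) = if i = j then 1 else 0 := fun i => by
    have h1 : (fun j => if i = j then (1 : ZMod p) else 0) ∈ Submodule.span (ZMod p)
        (Set.range (flip fun j (n : ℕ) =>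
          PadicInt.toZMod (coeff (n + 1) (spec hp2 0 (G j))))) := by
      rw [span_flip_eq_top_iff_linearIndependent.2 hind]
      trivial
    obtain ⟨a, ha⟩ := Finsupp.mem_span_range_iff_exists_finsupp.1 h1
    refine ⟨a, fun j => ?_⟩
    have h2 := congrFun ha j
    simp only [Finsupp.sum, Finset.sum_apply, Pi.smul_apply, smul_eq_mul, flip] at h2
    rw [← h2, coeffComb, Finsupp.sum]
    exact Finset.sum_congr rfl fun n _ => by rw [ZMod.natCast_zmod_val, coeff_mk]
  choose a ha using hdual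
  obtain ⟨L, hL⟩ : ∃ L : Fin _ → Module.Dual Λ ↥(lamOrd hp2 c),
      L = fun i => (a i).sum fun n b => ((b.val : ℕ) : Λ) • coefL hp2 c (n + 1) := ⟨_, rfl⟩
  have hLr : ∀ i, L i ∈ Submodule.span Λ (Set.range fun n => coefL hp2 c (n + 1)) := fun i => by
    rw [hL]
    exact Submodule.sum_mem _ fun n _ =>
      Submodule.smul_mem _ _ (Submodule.subset_span ⟨n, rfl⟩)
  obtain ⟨g, hg⟩ : ∃ g : Fin _ → ↥(lamOrd hp2 c), ∀ j, (g j : PowerSeries Λ) = G j :=
    ⟨fun j => ⟨G j, (mem_lamOrd h5).2 (hG j)⟩, fun _ => rfl⟩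
  obtain ⟨M, hM⟩ : ∃ M : Matrix (Fin _) (Fin _) Λ, ∀ i j, M i j = L i (g j) :=
    ⟨fun i j => L i (g j), fun _ _ => rfl⟩
  have hMd : IsUnit M.det := by
    obtain ⟨ψ, hψ⟩ : ∃ ψ : Λ →+* ZMod p, ψ = PadicInt.toZMod.comp constantCoeff := ⟨_, rfl⟩
    have h1 : ψ.mapMatrix M = 1 := by
      ext i j
      rw [RingHom.mapMatrix_apply, Matrix.map_apply, hM, Matrix.one_apply, ← ha i j, hL]
      simp only [coeffComb, Finsupp.sum]
      rw [LinearMap.sum_apply, map_sum]
      refine Finset.sum_congr rfl fun n _ => ?_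
      rw [LinearMap.smul_apply, coefL_apply, hg, smul_eq_mul, map_mul, map_natCast, coeff_mk, hψ,
        RingHom.comp_apply, coeff_spec, toZMod_evalLam]
    have h2 : ψ M.det = 1 := by rw [RingHom.map_det, h1, Matrix.det_one]
    rw [PowerSeries.isUnit_iff_constantCoeff]
    by_contra hu'
    rw [hψ, RingHom.comp_apply,
      FA.PadicIwasawa.toZMod_eq_zero_iff_norm.2 (PadicInt.not_isUnit_iff.1 hu')] at h2
    exact zero_ne_one h2
  obtain ⟨y, hy⟩ : ∃ y, y = (fun j => φ (g j)) ᵥ* M⁻¹ := ⟨_, rfl⟩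
  have key : φ = ∑ i, y i • L i := by
    have h1 : ∀ j, (∑ i, y i • L i) (g j) = φ (g j) := fun j => by
      have h2 : y ᵥ* M = fun j => φ (g j) := by
        rw [hy, Matrix.vecMul_vecMul, Matrix.nonsing_inv_mul _ hMd, Matrix.vecMul_one]
      rw [← congrFun h2 j, LinearMap.sum_apply, Matrix.vecMul, dotProduct]
      exact Finset.sum_congr rfl fun i _ => by rw [LinearMap.smul_apply, hM, smul_eq_mul]
    refine LinearMap.ext_on_range (v := g) ?_ fun j => (h1 j).symm
    refine Submodule.map_injective_of_injective (lamOrd hp2 c).injective_subtype ?_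
    rw [Submodule.map_span, ← Set.range_comp, Submodule.map_subtype_top]
    refine Eq.trans (congrArg (Submodule.span Λ) (congrArg Set.range ?_)) hsp.symm
    exact funext hg
  rw [key]
  exact Submodule.sum_mem _ fun i _ => Submodule.smul_mem _ _ (hLr i)

/-- **Duality**: the pairing is bijective. -/
theorem pairing_bijective (h5 : 5 ≤ p) (hc0 : c ≠ 0) :
    Function.Bijective (pairing hp2 c) := by
  refine ⟨pairing_injective h5 hc0, LinearMap.range_eq_top.1 (eq_top_iff.2 ?_)⟩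
  rw [← dual_eq_span h5 hc0, Submodule.span_le]
  rintro _ ⟨n, rfl⟩
  exact coefL_mem_range h5 (Nat.le_add_left 1 n)

/-- **The duality as an equivalence.** -/
def dualEquiv (h5 : 5 ≤ p) (hc0 : c ≠ 0) :
    ↥(heckeAlg hp2 c) ≃ₗ[PowerSeries ℤ_[p]] Module.Dual (PowerSeries ℤ_[p]) ↥(lamOrd hp2 c) :=
  LinearEquiv.ofBijective (pairing hp2 c) (pairing_bijective h5 hc0)

/-- **The Hecke algebra is free of the rank of the module.** -/
theorem heckeAlg_free (h5 : 5 ≤ p) (hc0 : c ≠ 0) :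
    Module.Free Λ ↥(heckeAlg hp2 c) ∧ Module.Finite Λ ↥(heckeAlg hp2 c) ∧
      Module.finrank Λ ↥(heckeAlg hp2 c) = Module.finrank Λ ↥(lamOrd hp2 c) := by
  have : NeZero (p - 1) := ⟨by omega⟩
  obtain ⟨k, hk, hc⟩ : ∃ k : ℕ, 3 ≤ k ∧ (k : ZMod (p - 1)) = c := ⟨c.val + (p - 1), by omega, by
    rw [Nat.cast_add, ZMod.natCast_self, add_zero, ZMod.natCast_zmod_val]⟩
  obtain ⟨G, -, hli, hsp, -⟩ := exists_lambda_basis (hp2 := hp2) h5 hk hc
  have b := (Module.Basis.span hli).map (LinearEquiv.ofEq _ _ hsp.symm)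
  have b' := b.dualBasis.map (dualEquiv h5 hc0).symm
  exact ⟨.of_basis b', .of_basis b', by
    rw [Module.finrank_eq_card_basis b', Module.finrank_eq_card_basis b]⟩

end FA.LambdaHecke

end
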