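import Fermat.Agent.LambdaHecke.Duality
import Mathlib.RingTheory.Ideal.GoingDown
import Mathlib.RingTheory.Flat.Basic
import Mathlib.RingTheory.FiniteType
import Mathlib.RingTheory.IntegralClosure.IsIntegralClosure.Basic

/-!
# Systems of eigenvalues and their lifts

A homomorphism of the Hecke algebra gives by duality the series `∑ λ(T_n) qⁿ`, an eigenseries, and
every normalised eigenseries comes from one. As the algebra is finite and flat over `Λ`, going down
lifts systems modulo `p` to every weight and systems of a weight to families.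
-/

set_option autoImplicit false
set_option linter.unusedSectionVars false

noncomputable section

open PowerSeries Filter Topology

namespace FA.LambdaHecke

open FA.PadicForms FA.OrdinaryProj FA.LambdaForms FA.PadicIwasawa

variable {p : ℕ} [Fact p.Prime] {hp2 : p ≠ 2} {c : ZMod (p - 1)} {R : Type*} [CommRing R]
  {lam : ↥(heckeAlg hp2 c) →+* R} {h5 : 5 ≤ p} {hc0 : c ≠ 0}

local notation "Λ" => PowerSeries ℤ_[p]

/-- **The operator `T_n`**, by duality; also for `n = 0`. -/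
def tOf (h5 : 5 ≤ p) (hc0 : c ≠ 0) (n : ℕ) : ↥(heckeAlg hp2 c) :=
  (dualEquiv h5 hc0).symm (coefL hp2 c n)

theorem pairing_tOf (n : ℕ) : pairing hp2 c (tOf h5 hc0 n) = coefL hp2 c n :=
  (dualEquiv h5 hc0).apply_symm_apply _

theorem tOf_one : tOf (hp2 := hp2) h5 hc0 1 = 1 :=
  pairing_injective h5 hc0 ((pairing_tOf 1).trans rfl)

theorem tOf_uSer {U : ↥(heckeAlg hp2 c)} (hU : ∀ F,
    ((U : Module.End Λ ↥(lamOrd hp2 c)) F : PowerSeries Λ) = uSer p (F : PowerSeries Λ)) (n : ℕ) :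
    U * tOf h5 hc0 n = tOf h5 hc0 (p * n) :=
  pairing_injective h5 hc0 (LinearMap.ext fun F => by
    rw [mul_comm, pairing_mul, pairing_tOf, pairing_tOf, coefL_apply, coefL_apply, hU, coeff_uSer])

theorem tOf_tSer {l : ℕ} {T : ↥(heckeAlg hp2 c)} (hT : ∀ F,
    ((T : Module.End Λ ↥(lamOrd hp2 c)) F : PowerSeries Λ) =
      tSer (thetaLam c l) l (F : PowerSeries Λ)) (n : ℕ) :
    T * tOf h5 hc0 n = tOf h5 hc0 (n * l) +
      if l ∣ n then thetaLam c l • tOf h5 hc0 (n / l) else 0 :=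
  pairing_injective h5 hc0 (LinearMap.ext fun F => by
    rw [mul_comm, pairing_mul, pairing_tOf, coefL_apply, hT, coeff_tSer, map_add]
    split_ifs
    · rw [map_smul, pairing_tOf, pairing_tOf, LinearMap.add_apply, LinearMap.smul_apply,
        coefL_apply, coefL_apply, smul_eq_mul]
    · rw [map_zero, pairing_tOf, LinearMap.add_apply, LinearMap.zero_apply, coefL_apply])

/-- **The series of a system of eigenvalues.** -/
def eigSer (h5 : 5 ≤ p) (hc0 : c ≠ 0) (lam : ↥(heckeAlg hp2 c) →+* R) : PowerSeries R :=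
  PowerSeries.mk fun n => lam (tOf h5 hc0 n)

theorem coeff_eigSer (n : ℕ) : coeff n (eigSer h5 hc0 lam) = lam (tOf h5 hc0 n) := coeff_mk _ _

theorem eigSer_one : coeff 1 (eigSer h5 hc0 lam) = 1 := by
  rw [coeff_eigSer, tOf_one, map_one]

/-- The series is an eigenseries of `U`. -/
theorem eigSer_uSer {U : ↥(heckeAlg hp2 c)} (hU : ∀ F,
    ((U : Module.End Λ ↥(lamOrd hp2 c)) F : PowerSeries Λ) = uSer p (F : PowerSeries Λ)) :
    uSer p (eigSer h5 hc0 lam) = C (lam U) * eigSer h5 hc0 lam :=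
  PowerSeries.ext fun n => by
    rw [coeff_uSer, coeff_C_mul, coeff_eigSer, coeff_eigSer, ← map_mul, tOf_uSer hU]

/-- The series is an eigenseries of `T_l`. -/
theorem eigSer_tSer {l : ℕ} {T : ↥(heckeAlg hp2 c)} (hT : ∀ F,
    ((T : Module.End Λ ↥(lamOrd hp2 c)) F : PowerSeries Λ) =
      tSer (thetaLam c l) l (F : PowerSeries Λ)) :
    tSer (lam (algebraMap Λ ↥(heckeAlg hp2 c) (thetaLam c l))) l (eigSer h5 hc0 lam) =
      C (lam T) * eigSer h5 hc0 lam :=
  PowerSeries.ext fun n => by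
    have e := congrArg lam (tOf_tSer (h5 := h5) (hc0 := hc0) hT n)
    rw [map_mul, map_add] at e
    rw [coeff_tSer, coeff_C_mul, coeff_eigSer, coeff_eigSer, coeff_eigSer, e]
    split_ifs
    · rw [Algebra.smul_def, map_mul]
    · rw [map_zero]

/-- Elements of the algebra by their values on a basis. -/
theorem exists_dual (h5 : 5 ≤ p) (hc0 : c ≠ 0) :
    ∃ (r : ℕ) (G : Fin r → ↥(lamOrd hp2 c)) (δ : Fin r → ↥(heckeAlg hp2 c)),
      ∀ h : ↥(heckeAlg hp2 c), h = ∑ j, pairing hp2 c h (G j) • δ j := by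
  have : NeZero (p - 1) := ⟨by omega⟩
  obtain ⟨k, hk, hc⟩ : ∃ k : ℕ, 3 ≤ k ∧ (k : ZMod (p - 1)) = c := ⟨c.val + (p - 1), by omega, by
    rw [Nat.cast_add, ZMod.natCast_self, add_zero, ZMod.natCast_zmod_val]⟩
  obtain ⟨G, -, hli, hsp, -⟩ := exists_lambda_basis (hp2 := hp2) h5 hk hc
  have b := (Module.Basis.span hli).map (LinearEquiv.ofEq _ _ hsp.symm)
  refine ⟨_, b, fun j => (dualEquiv h5 hc0).symm (b.coord j), fun h =>
    pairing_injective h5 hc0 ?_⟩
  rw [map_sum]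
  simp only [map_smul]
  have e : ∀ j, pairing hp2 c ((dualEquiv h5 hc0).symm (b.coord j)) = b.coord j :=
    fun j => (dualEquiv h5 hc0).apply_symm_apply _
  simp only [e]
  exact (b.sum_dual_apply_smul_coord _).symm

/-- **The series is a combination of the specialisations of ordinary families.** -/
theorem eigSer_expansion (h5 : 5 ≤ p) (hc0 : c ≠ 0) (lam : ↥(heckeAlg hp2 c) →+* R) :
    ∃ (r : ℕ) (x : Fin r → R) (G : Fin r → PowerSeries (PowerSeries ℤ_[p])),
      (∀ j, IsLamOrd hp2 c (G j)) ∧ eigSer h5 hc0 lam =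
        ∑ j, C (x j) * (G j).map (lam.comp (algebraMap Λ ↥(heckeAlg hp2 c))) := by
  obtain ⟨r, G, δ, hδ⟩ := exists_dual (hp2 := hp2) h5 hc0
  refine ⟨r, fun j => lam (δ j), fun j => (G j : PowerSeries Λ),
    fun j => (mem_lamOrd h5).1 (G j).2, PowerSeries.ext fun n => ?_⟩
  rw [coeff_eigSer, hδ (tOf h5 hc0 n), map_sum, map_sum]
  refine Finset.sum_congr rfl fun j _ => ?_
  rw [Algebra.smul_def, map_mul, coeff_C_mul, coeff_map, pairing_tOf, coefL_apply, mul_comm]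
  rfl

/-- A series with eigenvalues for the generators has them for the algebra. -/
theorem exists_eigenvalue {φ : PowerSeries ℤ_[p] →+* R} {g : PowerSeries R}
    (hU : ∃ u, uSer p g = C u * g)
    (hT : ∀ l, l.Prime → l ≠ p → ∃ t, tSer (φ (thetaLam c l)) l g = C t * g)
    (h : ↥(heckeAlg hp2 c)) : ∃ μ, ∀ (F : ↥(lamOrd hp2 c)) (ν : R),
      (F : PowerSeries Λ).map φ = C ν * g →
        (((h : Module.End Λ ↥(lamOrd hp2 c)) F : PowerSeries Λ)).map φ = C (μ * ν) * g := by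
  obtain ⟨h, hh⟩ := h
  induction hh using Algebra.adjoin_induction with
  | mem h hh =>
    rcases hh with hh | ⟨l, hl, hlp, hh⟩
    · obtain ⟨u, hu⟩ := hU
      refine ⟨u, fun F ν hF => ?_⟩
      rw [hh]
      have e : (uSer p (F : PowerSeries Λ)).map φ = uSer p ((F : PowerSeries Λ).map φ) :=
        PowerSeries.ext fun n => by simp [coeff_uSer]
      rw [e, hF, map_mul, mul_comm (C u), mul_assoc, ← hu]
      exact PowerSeries.ext fun n => by simp [coeff_uSer]
    · obtain ⟨t, ht⟩ := hT l hl hlp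
      refine ⟨t, fun F ν hF => ?_⟩
      rw [hh, map_tSer, hF, ← PowerSeries.smul_eq_C_mul, map_smul, PowerSeries.smul_eq_C_mul, ht,
        ← mul_assoc, ← map_mul, mul_comm ν t]
  | algebraMap a =>
    refine ⟨φ a, fun F ν hF => ?_⟩
    show ((algebraMap Λ (Module.End Λ ↥(lamOrd hp2 c)) a F : ↥(lamOrd hp2 c)) : PowerSeries Λ).map
      φ = _
    rw [Module.algebraMap_end_apply, Submodule.coe_smul, PowerSeries.smul_eq_C_mul, map_mul, map_C,
      hF, map_mul, mul_assoc]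
  | add a b ha hb iha ihb =>
    obtain ⟨μ, hμ⟩ := iha
    obtain ⟨μ', hμ'⟩ := ihb
    refine ⟨μ + μ', fun F ν hF => ?_⟩
    show (((a + b) F : ↥(lamOrd hp2 c)) : PowerSeries Λ).map φ = _
    rw [LinearMap.add_apply, Submodule.coe_add, map_add, hμ F ν hF, hμ' F ν hF, ← add_mul,
      ← map_add, ← add_mul]
  | mul a b ha hb iha ihb =>
    obtain ⟨μ, hμ⟩ := iha
    obtain ⟨μ', hμ'⟩ := ihb
    refine ⟨μ * μ', fun F ν hF => ?_⟩
    show (((a * b) F : ↥(lamOrd hp2 c)) : PowerSeries Λ).map φ = _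
    rw [Module.End.mul_apply, hμ _ _ (hμ' F ν hF), mul_assoc]

/-- **A normalised eigenseries comes from a system of eigenvalues.** -/
theorem exists_hom (h5 : 5 ≤ p) (hc0 : c ≠ 0) {φ : PowerSeries ℤ_[p] →+* R}
    {F : PowerSeries (PowerSeries ℤ_[p])} (hF : IsLamOrd hp2 c F)
    (h1 : coeff 1 (F.map φ) = 1) (hU : ∃ u, uSer p (F.map φ) = C u * F.map φ)
    (hT : ∀ l, l.Prime → l ≠ p → ∃ t, tSer (φ (thetaLam c l)) l (F.map φ) = C t * F.map φ) :
    ∃ lam : ↥(heckeAlg hp2 c) →+* R,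
      (∀ a, lam (algebraMap Λ ↥(heckeAlg hp2 c) a) = φ a) ∧ eigSer h5 hc0 lam = F.map φ := by
  obtain ⟨F₀, hF₀⟩ : ∃ F₀ : ↥(lamOrd hp2 c), (F₀ : PowerSeries Λ) = F :=
    ⟨⟨F, (mem_lamOrd h5).2 hF⟩, rfl⟩
  have hval : ∀ h : ↥(heckeAlg hp2 c), ∀ (F' : ↥(lamOrd hp2 c)) (ν : R),
      (F' : PowerSeries Λ).map φ = C ν * F.map φ →
        (((h : Module.End Λ ↥(lamOrd hp2 c)) F' : PowerSeries Λ)).map φ =
          C (φ (pairing hp2 c h F₀) * ν) * F.map φ := fun h => by
    obtain ⟨μ, hμ⟩ := exists_eigenvalue (φ := φ) hU hT h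
    have e : φ (pairing hp2 c h F₀) = μ := by
      have := congrArg (coeff 1) (hμ F₀ 1 (by rw [hF₀, map_one, one_mul]))
      rw [coeff_map, coeff_C_mul, h1, mul_one, mul_one] at this
      exact this
    exact fun F' ν h' => e ▸ hμ F' ν h'
  have hone : φ (pairing hp2 c 1 F₀) = 1 := by
    rw [← hF₀, coeff_map] at h1
    exact h1
  refine ⟨{ toFun := fun h => φ (pairing hp2 c h F₀)
            map_one' := ?_, map_mul' := fun g h => ?_, map_zero' := ?_
            map_add' := fun g h => ?_ }, fun a => ?_, PowerSeries.ext fun n => ?_⟩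
  · exact hone
  · have h2 := congrArg (coeff 1) (hval g _ _ (hval h F₀ 1 (by rw [hF₀, map_one, one_mul])))
    rw [coeff_map, coeff_C_mul, h1, mul_one, mul_one] at h2
    exact h2
  · simp
  · simp
  · show φ (pairing hp2 c (algebraMap Λ ↥(heckeAlg hp2 c) a) F₀) = φ a
    rw [Algebra.algebraMap_eq_smul_one, map_smul, LinearMap.smul_apply, smul_eq_mul, map_mul,
      hone, mul_one]
  · refine (coeff_eigSer n).trans ?_
    show φ (pairing hp2 c (tOf h5 hc0 n) F₀) = coeff n (F.map φ)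
    rw [pairing_tOf, coefL_apply, hF₀, coeff_map]

/-- **A system is determined by its series.** -/
theorem hom_ext (h5 : 5 ≤ p) (hc0 : c ≠ 0) {lam' : ↥(heckeAlg hp2 c) →+* R}
    (ha : ∀ a, lam (algebraMap Λ ↥(heckeAlg hp2 c) a) = lam' (algebraMap Λ ↥(heckeAlg hp2 c) a))
    (he : eigSer h5 hc0 lam = eigSer h5 hc0 lam') : lam = lam' := by
  have hn : ∀ n, lam (tOf h5 hc0 n) = lam' (tOf h5 hc0 n) := fun n => by
    rw [← coeff_eigSer (lam := lam), he, coeff_eigSer]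
  refine RingHom.ext fun h => ?_
  obtain ⟨h, hh⟩ := h
  induction hh using Algebra.adjoin_induction with
  | mem h hh =>
    have hmem := Algebra.subset_adjoin (R := PowerSeries ℤ_[p]) hh
    rcases hh with hh' | ⟨l, hl, hlp, hh'⟩
    · have e := tOf_uSer (h5 := h5) (hc0 := hc0) (U := ⟨h, hmem⟩) hh' 1
      rw [tOf_one, mul_one] at e
      rw [e]
      exact hn _
    · have e := tOf_tSer (h5 := h5) (hc0 := hc0) (l := l) (T := ⟨h, hmem⟩) hh' 1
      rw [tOf_one, mul_one, if_neg hl.not_dvd_one, add_zero] at e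
      rw [e]
      exact hn _
  | algebraMap a => exact ha a
  | add a b ha' hb iha ihb =>
    exact (map_add lam (⟨a, ha'⟩ : ↥(heckeAlg hp2 c)) ⟨b, hb⟩).trans
      ((congrArg₂ (· + ·) iha ihb).trans (map_add lam' _ _).symm)
  | mul a b ha' hb iha ihb =>
    exact (map_mul lam (⟨a, ha'⟩ : ↥(heckeAlg hp2 c)) ⟨b, hb⟩).trans
      ((congrArg₂ (· * ·) iha ihb).trans (map_mul lam' _ _).symm)

/-- **Control**: the kernel of the action on the weight `(c, s)`. -/
theorem kills_iff (h5 : 5 ≤ p) (hc0 : c ≠ 0) (s : ℤ_[p]) (h : ↥(heckeAlg hp2 c)) :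
    (∀ F, spec hp2 s ((h : Module.End Λ ↥(lamOrd hp2 c)) F : PowerSeries Λ) = 0) ↔
      ∃ h', h = algebraMap Λ ↥(heckeAlg hp2 c) (X - C (xAt s)) * h' := by
  refine ⟨fun h0 => ?_, ?_⟩
  · obtain ⟨r, G, δ, hδ⟩ := exists_dual (hp2 := hp2) h5 hc0
    have hz : ∀ j, (X - C (xAt s) : Λ) ∣ pairing hp2 c h (G j) := fun j => by
      refine X_sub_C_dvd (hp2 := hp2) s _ ?_
      rw [pairing_apply, ← coeff_spec, h0, map_zero]
    choose q hq using hz
    refine ⟨∑ j, q j • δ j, (hδ h).trans ?_⟩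
    rw [Finset.mul_sum]
    exact Finset.sum_congr rfl fun j _ => by rw [hq j, ← Algebra.smul_def, smul_smul]
  · rintro ⟨h', rfl⟩ F
    rw [← Algebra.smul_def, Subalgebra.coe_smul, LinearMap.smul_apply, Submodule.coe_smul,
      PowerSeries.smul_eq_C_mul, map_mul, spec_C, map_sub, evalLam_X, evalLam_C,
      show expOne p s - 1 = xAt s from rfl, sub_self, map_zero, zero_mul]

theorem hasGoingDown (h5 : 5 ≤ p) (hc0 : c ≠ 0) :
    Algebra.HasGoingDown Λ ↥(heckeAlg hp2 c) := by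
  obtain ⟨hfree, -, -⟩ := heckeAlg_free (hp2 := hp2) h5 hc0
  have : Module.Flat Λ ↥(heckeAlg hp2 c) := Module.Flat.of_free
  exact Algebra.HasGoingDown.of_flat

theorem ker_evalLam_isPrime (s : ℤ_[p]) : (RingHom.ker (evalLam hp2 s)).IsPrime :=
  RingHom.ker_isPrime _

/-- **Systems modulo `p` lift to every weight.** -/
theorem exists_weight_lift (h5 : 5 ≤ p) (hc0 : c ≠ 0) (m : Ideal ↥(heckeAlg hp2 c)) [m.IsMaximal]
    (s : ℤ_[p]) : ∃ P ≤ m, P.IsPrime ∧
      P.comap (algebraMap Λ ↥(heckeAlg hp2 c)) = RingHom.ker (evalLam hp2 s) := by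
  obtain ⟨hfree, hfin, -⟩ := heckeAlg_free (hp2 := hp2) h5 hc0
  have := ker_evalLam_isPrime (hp2 := hp2) s
  have hle : RingHom.ker (evalLam hp2 s) ≤ m.under Λ := by
    have hmax : (m.under Λ).IsMaximal := Ideal.isMaximal_comap_of_isIntegral_of_isMaximal m
    rw [← IsLocalRing.eq_maximalIdeal hmax |>.symm]
    exact IsLocalRing.le_maximalIdeal (Ideal.IsPrime.ne_top inferInstance)
  have : m.LiesOver (m.under Λ) := ⟨rfl⟩
  have hgd := hasGoingDown (hp2 := hp2) h5 hc0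
  obtain ⟨P, hPm, hP, hPo⟩ := Ideal.exists_ideal_le_liesOver_of_le m hle
  exact ⟨P, hPm, hP, hPo.over.symm⟩

/-- **A system lies on a family.** -/
theorem exists_family_below (h5 : 5 ≤ p) (hc0 : c ≠ 0) (P : Ideal ↥(heckeAlg hp2 c))
    [P.IsPrime] : ∃ P₀ ≤ P, P₀.IsPrime ∧
      P₀.comap (algebraMap Λ ↥(heckeAlg hp2 c)) = ⊥ := by
  obtain ⟨hfree, hfin, -⟩ := heckeAlg_free (hp2 := hp2) h5 hc0
  have : (⊥ : Ideal Λ).IsPrime := Ideal.isPrime_bot
  have : P.LiesOver (P.under Λ) := ⟨rfl⟩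
  have hgd := hasGoingDown (hp2 := hp2) h5 hc0
  obtain ⟨P₀, h1, h2, h3⟩ := Ideal.exists_ideal_le_liesOver_of_le (p := (⊥ : Ideal Λ))
    (q := P.under Λ) P bot_le
  exact ⟨P₀, h1, h2, h3.over.symm⟩

/-- The values of a system of a weight are finite over `ℤ_p`. -/
theorem quotient_finite (h5 : 5 ≤ p) (hc0 : c ≠ 0) {s : ℤ_[p]} (P : Ideal ↥(heckeAlg hp2 c))
    (hP : P.comap (algebraMap Λ ↥(heckeAlg hp2 c)) = RingHom.ker (evalLam hp2 s)) :
    ∃ ρ : ℤ_[p] →+* ↥(heckeAlg hp2 c) ⧸ P, Function.Injective ρ ∧ ρ.Finite ∧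
      ∀ a, Ideal.Quotient.mk P (algebraMap Λ ↥(heckeAlg hp2 c) a) = ρ (evalLam hp2 s a) := by
  obtain ⟨hfree, hfin, -⟩ := heckeAlg_free (hp2 := hp2) h5 hc0
  obtain ⟨ρ, hρ⟩ : ∃ ρ, ρ = ((Ideal.Quotient.mk P).comp
      (algebraMap Λ ↥(heckeAlg hp2 c))).comp (C : ℤ_[p] →+* Λ) := ⟨_, rfl⟩
  have e : ∀ a, Ideal.Quotient.mk P (algebraMap Λ ↥(heckeAlg hp2 c) a) =
      ρ (evalLam hp2 s a) := fun a => by
    rw [hρ, RingHom.comp_apply, RingHom.comp_apply, Ideal.Quotient.eq, ← map_sub,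
      ← Ideal.mem_comap, hP, RingHom.mem_ker, map_sub, evalLam_C, sub_self]
  refine ⟨ρ, (injective_iff_map_eq_zero _).2 fun a ha => ?_, ?_, e⟩
  · rw [hρ, RingHom.comp_apply, RingHom.comp_apply, Ideal.Quotient.eq_zero_iff_mem,
      ← Ideal.mem_comap, hP, RingHom.mem_ker, evalLam_C] at ha
    exact ha
  · refine RingHom.Finite.of_comp_finite (f := evalLam hp2 s) ?_
    rw [show ρ.comp (evalLam hp2 s) = (Ideal.Quotient.mk P).comp
      (algebraMap Λ ↥(heckeAlg hp2 c)) from RingHom.ext fun a => (e a).symm]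
    exact (RingHom.Finite.of_surjective _ Ideal.Quotient.mk_surjective).comp
      (RingHom.finite_algebraMap.2 hfin)

end FA.LambdaHecke

end
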