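import Fermat.Agent.LambdaHecke.Operators

/-!
# The Hecke operators on the ordinary `Λ`-adic forms

The coefficient of `T_l` in the class `c` is the element `θ` of `Λ` with the value `l ^ (k - 1)` at
every `k ≥ 1` of the class. The algebra generated by `U` and the `T_l` is commutative.
-/

set_option autoImplicit false
set_option linter.unusedSectionVars false

noncomputable section

open PowerSeries Filter Topology

namespace FA.LambdaHecke

open FA.PadicForms FA.OrdinaryProj FA.LambdaForms FA.PadicIwasawa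

variable {p : ℕ} [Fact p.Prime] {hp2 : p ≠ 2} {c : ZMod (p - 1)}
  {F : PowerSeries (PowerSeries ℤ_[p])}

local notation "Λ" => PowerSeries ℤ_[p]

/-- The least positive integer of the class. -/
def classMin (c : ZMod (p - 1)) : ℕ := if c.val = 0 then p - 1 else c.val

/-- The coefficient of `T_l` in the class `c`. -/
def thetaLam (c : ZMod (p - 1)) (l : ℕ) : PowerSeries ℤ_[p] :=
  C ((l : ℤ_[p]) ^ (classMin c - 1) *
      expOne p (-(logOne (l : ℤ_[p]) * Ring.inverse ((p - 1 : ℕ) : ℤ_[p]) * (classMin c : ℤ_[p])))) *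
    unitPow (l : ℤ_[p])

/-- **The value at the integers of the class.** -/
theorem evalLam_thetaLam (h5 : 5 ≤ p) {l : ℕ} (hlp : ¬p ∣ l) {k : ℕ} (hk : 1 ≤ k)
    (hc : (k : ZMod (p - 1)) = c) :
    evalLam hp2 (k : ℤ_[p]) (thetaLam c l) = (l : ℤ_[p]) ^ (k - 1) := by
  have : NeZero (p - 1) := ⟨by omega⟩
  have hv : c.val = k % (p - 1) := by rw [← hc, ZMod.val_natCast]
  obtain ⟨k₀, hk₀⟩ : ∃ k₀, k₀ = classMin c := ⟨_, rfl⟩
  obtain ⟨m, hm, hd⟩ : ∃ m, k = k₀ + m ∧ p - 1 ∣ m := by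
    rw [hk₀, classMin, hv]
    have h1 := Nat.mod_add_div k (p - 1)
    rcases Nat.eq_zero_or_pos (k % (p - 1)) with h0 | h0
    · rw [if_pos h0]
      obtain ⟨t, ht⟩ : p - 1 ∣ k := Nat.dvd_of_mod_eq_zero h0
      obtain ⟨t, rfl⟩ : ∃ t', t = t' + 1 := ⟨t - 1, by
        rcases t with _ | t
        · simp [ht] at hk
        · rfl⟩
      exact ⟨(p - 1) * t, by rw [ht]; ring, dvd_mul_right _ _⟩
    · rw [if_neg h0.ne']
      exact ⟨(p - 1) * (k / (p - 1)), h1.symm, dvd_mul_right _ _⟩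
  have hpos : 1 ≤ k₀ := by
    rw [hk₀, classMin]
    split_ifs <;> omega
  have hu := isUnit_natCast (p := p) hlp
  obtain ⟨a, ha⟩ : ∃ a, a = logOne (l : ℤ_[p]) * Ring.inverse ((p - 1 : ℕ) : ℤ_[p]) := ⟨_, rfl⟩
  have he : evalLam hp2 (k : ℤ_[p]) (unitPow (l : ℤ_[p])) =
      expOne p (a * (k₀ : ℤ_[p])) * evalLam hp2 (m : ℤ_[p]) (unitPow (l : ℤ_[p])) := by
    rw [unitPow, ← ha, evalLam_onePlus, evalLam_onePlus, hm, Nat.cast_add, mul_add,
      AddChar.map_add_eq_mul]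
  rw [thetaLam, ← ha, map_mul, evalLam_C, ← hk₀, he, evalLam_unitPow h5 hu hd, mul_assoc,
    ← mul_assoc (expOne p _), ← AddChar.map_add_eq_mul, neg_add_cancel, AddChar.map_zero_eq_one,
    one_mul, ← pow_add]
  congr 1
  omega

/-- The values near a weight. -/
theorem thetaLam_near (h5 : 5 ≤ p) {l : ℕ} (hlp : ¬p ∣ l) (s : ℤ_[p]) {ε : ℝ} (hε : 0 < ε) :
    ∃ b, ∀ k : ℕ, 1 ≤ k → Near ((c, s) : Weights p) b k →
      ‖(l : ℤ_[p]) ^ (k - 1) - evalLam hp2 s (thetaLam c l)‖ ≤ ε := by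
  obtain ⟨δ, hδ, hclose⟩ := Metric.continuousAt_iff.1
    ((continuous_xAt (p := p)).continuousAt (x := s)) ε hε
  obtain ⟨b, hb⟩ := exists_pow_neg_lt (p := p) hδ
  refine ⟨b, fun k hk hn => ?_⟩
  rw [← evalLam_thetaLam (hp2 := hp2) h5 hlp hk hn.1]
  refine (norm_evalLam_sub _ _ _).trans ?_
  rw [← dist_eq_norm]
  exact (hclose (by rw [dist_eq_norm]; exact hn.2.trans_lt hb)).le

/-- `T_l` keeps the ordinary families. -/
theorem isLamOrd_tSer (h5 : 5 ≤ p) {l : ℕ} (hl : l.Prime) (hlp : l ≠ p)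
    (h : IsLamOrd hp2 c F) : IsLamOrd hp2 c (tSer (thetaLam c l) l F) := fun s => by
  have hd : ¬p ∣ l := fun e => hlp (((Nat.prime_dvd_prime_iff_eq Fact.out hl).1 e).symm)
  have e : toQps p (spec hp2 s (tSer (thetaLam c l) l F)) =
      tSer ((evalLam hp2 s (thetaLam c l) : ℤ_[p]) : ℚ_[p]) l (toQps p (spec hp2 s F)) := by
    rw [spec, map_tSer, toQps, map_tSer]
    rfl
  refine ⟨show IsPadicForm _ _ from e ▸ isPadicForm_tSer h5 hl
    (fun _ hε => thetaLam_near h5 hd s hε) (h s).1, ?_⟩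
  rw [e, ordProj_tSer h5 hl hlp (h s).1, (h s).2]

/-- `U` keeps the ordinary families. -/
theorem isLamOrd_uSer (h5 : 5 ≤ p) (h : IsLamOrd hp2 c F) : IsLamOrd hp2 c (uSer p F) := fun s => by
  have e : toQps p (spec hp2 s (uSer p F)) = uSer p (toQps p (spec hp2 s F)) :=
    PowerSeries.ext fun n => by simp [coeff_uSer]
  refine ⟨show IsPadicForm _ _ from e ▸ (h s).1.uSer h5, ?_⟩
  rw [e, ordProj_uSer h5 (h s).1, (h s).2]

/-- `U` as a linear map on series. -/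
def uLin (p : ℕ) [Fact p.Prime] :
    PowerSeries (PowerSeries ℤ_[p]) →ₗ[PowerSeries ℤ_[p]] PowerSeries (PowerSeries ℤ_[p]) where
  toFun := uSer p
  map_add' f g := PowerSeries.ext fun n => by simp [coeff_uSer]
  map_smul' r f := PowerSeries.ext fun n => by simp [coeff_uSer]

/-- The generators: `U` and `T_l` for the primes `l ≠ p`. -/
def IsHeckeGen (h : Module.End (PowerSeries ℤ_[p]) ↥(lamOrd hp2 c)) : Prop :=
  (∀ F, (h F : PowerSeries Λ) = uSer p (F : PowerSeries Λ)) ∨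
    ∃ l, l.Prime ∧ l ≠ p ∧ ∀ F, (h F : PowerSeries Λ) = tSer (thetaLam c l) l (F : PowerSeries Λ)

/-- **The ordinary Hecke algebra over `Λ`.** -/
def heckeAlg (hp2 : p ≠ 2) (c : ZMod (p - 1)) :
    Subalgebra (PowerSeries ℤ_[p]) (Module.End (PowerSeries ℤ_[p]) ↥(lamOrd hp2 c)) :=
  Algebra.adjoin _ {h | IsHeckeGen h}

theorem gen_comm {g h : Module.End (PowerSeries ℤ_[p]) ↥(lamOrd hp2 c)} (hg : IsHeckeGen g)
    (hh : IsHeckeGen h) : g * h = h * g := by
  refine LinearMap.ext fun F => Subtype.ext ?_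
  rw [Module.End.mul_apply, Module.End.mul_apply]
  rcases hg with hg | ⟨l, hl, hlp, hg⟩ <;> rcases hh with hh | ⟨m, hm, hmp, hh⟩
  · rw [hg, hh, hh, hg]
  · rw [hg, hh, hh, hg, tSer_uSer _ hm hmp]
  · rw [hg, hh, hh, hg, tSer_uSer _ hl hlp]
  · rw [hg, hh, hh, hg]
    rcases eq_or_ne l m with rfl | hne
    · rfl
    · rw [tSer_comm _ _ hl hm hne]

instance : IsMulCommutative ↥(heckeAlg hp2 c) :=
  Algebra.isMulCommutative_adjoin _ fun _ hg _ hh => gen_comm hg hh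

instance : CommRing ↥(heckeAlg hp2 c) :=
  { @Subalgebra.toRing (PowerSeries ℤ_[p]) (Module.End (PowerSeries ℤ_[p]) ↥(lamOrd hp2 c)) _
      Module.End.instRing _ (heckeAlg hp2 c) with mul_comm := mul_comm' }

theorem exists_uGen (h5 : 5 ≤ p) : ∃ h ∈ heckeAlg hp2 c, ∀ F,
    (h F : PowerSeries Λ) = uSer p (F : PowerSeries Λ) :=
  ⟨(uLin p).restrict fun _ hF => (mem_lamOrd h5).2 (isLamOrd_uSer h5 ((mem_lamOrd h5).1 hF)),
    Algebra.subset_adjoin (Or.inl fun _ => rfl), fun _ => rfl⟩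

theorem exists_tGen (h5 : 5 ≤ p) {l : ℕ} (hl : l.Prime) (hlp : l ≠ p) :
    ∃ h ∈ heckeAlg hp2 c, ∀ F,
      (h F : PowerSeries Λ) = tSer (thetaLam c l) l (F : PowerSeries Λ) :=
  ⟨(tSer (thetaLam c l) l).restrict fun _ hF =>
      (mem_lamOrd h5).2 (isLamOrd_tSer h5 hl hlp ((mem_lamOrd h5).1 hF)),
    Algebra.subset_adjoin (Or.inr ⟨l, hl, hlp, fun _ => rfl⟩), fun _ => rfl⟩

end FA.LambdaHecke

end
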