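import Fermat.Agent.LambdaForms.Free

/-!
# The Hecke operators `T_l`, `l ≠ p`

With coefficient `θ` the operator takes `a(n)` to `a(n l) + θ a(n / l)`. On the classical forms of
weight `k` one has `θ = l ^ (k - 1)`, so the `p`-adic forms of a weight are stable when `θ` is the
limit of these numbers; and `T_l` commutes with `U`, so with the ordinary projector.
-/

set_option autoImplicit false
set_option linter.unusedSectionVars false

noncomputable section

open UpperHalfPlane hiding I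
open PowerSeries Filter Topology
open CongruenceSubgroup
open scoped MatrixGroups ModularForm

namespace FA.LambdaHecke

open FA.PadicForms FA.OrdinaryProj

/-- `a(n) ↦ a(n l) + θ a(n / l)`. -/
def tSer {R : Type*} [CommRing R] (θ : R) (l : ℕ) : PowerSeries R →ₗ[R] PowerSeries R where
  toFun f := PowerSeries.mk fun n => coeff (n * l) f + if l ∣ n then θ * coeff (n / l) f else 0
  map_add' f g := by
    ext n
    simp only [coeff_mk, map_add]
    split_ifs <;> ring
  map_smul' r f := by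
    ext n
    simp only [coeff_mk, map_smul, smul_eq_mul, RingHom.id_apply]
    split_ifs <;> ring

theorem coeff_tSer {R : Type*} [CommRing R] (θ : R) (l n : ℕ) (f : PowerSeries R) :
    coeff n (tSer θ l f) = coeff (n * l) f + if l ∣ n then θ * coeff (n / l) f else 0 :=
  by simp [tSer]

theorem map_tSer {R S : Type*} [CommRing R] [CommRing S] (φ : R →+* S) (θ : R) (l : ℕ)
    (f : PowerSeries R) : PowerSeries.map φ (tSer θ l f) = tSer (φ θ) l (PowerSeries.map φ f) := by
  ext n
  simp only [coeff_map, coeff_tSer, map_add]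
  split_ifs <;> simp

/-- `T_l` commutes with `T_m`. -/
theorem tSer_comm {R : Type*} [CommRing R] (θ θ' : R) {l m : ℕ} (hl : l.Prime) (hm : m.Prime)
    (hne : l ≠ m) (f : PowerSeries R) : tSer θ l (tSer θ' m f) = tSer θ' m (tSer θ l f) := by
  have hco : l.Coprime m := (Nat.coprime_primes hl hm).2 hne
  ext n
  simp only [coeff_tSer]
  have h1 : m ∣ n * l ↔ m ∣ n := hco.symm.dvd_mul_right
  have h2 : l ∣ n * m ↔ l ∣ n := hco.dvd_mul_right
  by_cases hln : l ∣ n <;> by_cases hmn : m ∣ n <;> simp only [hln, hmn, h1, h2, if_true, if_false]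
  · obtain ⟨i, rfl⟩ := hco.mul_dvd_of_dvd_of_dvd hln hmn
    rw [show l * m * i / l = m * i by rw [mul_assoc, Nat.mul_div_cancel_left _ hl.pos],
      show l * m * i / m = l * i by
        rw [show l * m * i = m * (l * i) by ring, Nat.mul_div_cancel_left _ hm.pos],
      show l * m * i * l / m = l * i * l by
        rw [show l * m * i * l = m * (l * i * l) by ring, Nat.mul_div_cancel_left _ hm.pos],
      show l * m * i * m / l = m * i * m by
        rw [show l * m * i * m = l * (m * i * m) by ring, Nat.mul_div_cancel_left _ hl.pos],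
      if_pos (dvd_mul_right m i), if_pos (dvd_mul_right l i),
      Nat.mul_div_cancel_left _ hm.pos, Nat.mul_div_cancel_left _ hl.pos,
      show l * m * i * l * m = l * m * i * m * l by ring]
    ring
  · obtain ⟨i, rfl⟩ := hln
    have hi : ¬m ∣ i := fun h => hmn (h.mul_left l)
    rw [Nat.mul_div_cancel_left _ hl.pos, if_neg hi,
      show l * i * m / l = i * m by rw [mul_assoc, Nat.mul_div_cancel_left _ hl.pos],
      show l * i * l * m = l * i * m * l by ring]
    ring
  · obtain ⟨i, rfl⟩ := hmn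
    have hi : ¬l ∣ i := fun h => hln (h.mul_left m)
    rw [Nat.mul_div_cancel_left _ hm.pos, if_neg hi,
      show m * i * l / m = i * l by rw [mul_assoc, Nat.mul_div_cancel_left _ hm.pos],
      show m * i * m * l = m * i * l * m by ring]
    ring
  · rw [mul_right_comm]

variable {p : ℕ} [Fact p.Prime]

/-- `T_l` commutes with the powers of `U`. -/
theorem tSer_uPow {R : Type*} [CommRing R] (θ : R) {l : ℕ} (hl : l.Prime) (hlp : l ≠ p) (i : ℕ)
    (f : PowerSeries R) : tSer θ l (uPow p i f) = uPow p i (tSer θ l f) := by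
  have hco : l.Coprime (p ^ i) :=
    Nat.Coprime.pow_right _ ((Nat.coprime_primes hl Fact.out).2 hlp)
  ext n
  simp only [coeff_tSer, coeff_uPow]
  have h1 : l ∣ p ^ i * n ↔ l ∣ n := hco.dvd_mul_left
  rw [show p ^ i * (n * l) = p ^ i * n * l by ring]
  congr 1
  simp only [h1]
  split_ifs with h
  · rw [Nat.mul_div_assoc _ h]
  · rfl

theorem tSer_uSer {R : Type*} [CommRing R] (θ : R) {l : ℕ} (hl : l.Prime) (hlp : l ≠ p)
    (f : PowerSeries R) : tSer θ l (uSer p f) = uSer p (tSer θ l f) := by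
  rw [← uPow_one, ← uPow_one, tSer_uPow θ hl hlp]

/-- **`T_l` on rational forms of level one.** -/
theorem isRatForm_tSer {k l : ℕ} (hl : l.Prime) {S : PowerSeries ℚ} (h : IsRatForm k S)
    (hk : 1 ≤ k) : IsRatForm k (tSer ((l : ℚ) ^ (k - 1)) l S) := by
  obtain ⟨G, hG⟩ := h
  set G₁ : ModularForm (Gamma0 1) (k : ℤ) := ModularForm.mcast rfl G FA.EisCong.gamma0_one_coe
  set g := ModularForm.heckeTLin (k : ℤ) hl hl.not_dvd_one G₁ with hg
  refine ⟨ModularForm.mcast rfl g FA.EisCong.gamma0_one_coe.symm, ?_⟩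
  have hq : ∀ m, ModularFormClass.qCoeff G₁ m = ((coeff m S : ℚ) : ℂ) := fun m => by
    show (qExpansion 1 ⇑G).coeff m = _
    rw [hG, PowerSeries.coeff_map]
    rfl
  refine PowerSeries.ext fun m => ?_
  show ModularFormClass.qCoeff (ModularForm.heckeT (k : ℤ) l ⇑G₁) m = _
  rw [ModularFormClass.qCoeff_heckeT G₁ (one_mem_strictPeriods_Gamma0 1) hl.ne_zero,
    ModularForm.coeffHeckeT_apply, hq, hq, PowerSeries.coeff_map, coeff_tSer,
    show ((l : ℂ) ^ ((k : ℤ) - 1)) = (l : ℂ) ^ (k - 1) by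
      rw [← zpow_natCast, Nat.cast_sub hk, Nat.cast_one]]
  split_ifs <;> simp

theorem supLe_tSer {θ : ℤ_[p]} {l : ℕ} {f : PowerSeries ℚ_[p]} {C : ℝ} (h : SupLe f C) :
    SupLe (tSer (θ : ℚ_[p]) l f) C := fun n => by
  rw [coeff_tSer]
  refine (Padic.nonarchimedean _ _).trans (max_le (h _) ?_)
  split_ifs
  · rw [norm_mul]
    exact (mul_le_of_le_one_left (norm_nonneg _) θ.2).trans (h _)
  · rw [norm_zero]
    exact h.nonneg

variable {f : PowerSeries ℚ_[p]} {κ : Weights p} {θ : ℤ_[p]} {l : ℕ}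

/-- **`T_l` keeps the weight**, if `θ` is the limit of `l ^ (k - 1)` at the weight. -/
theorem isPadicForm_tSer (h5 : 5 ≤ p) (hl : l.Prime)
    (hθ : ∀ ε : ℝ, 0 < ε → ∃ b, ∀ k : ℕ, 1 ≤ k → Near κ b k →
      ‖(l : ℤ_[p]) ^ (k - 1) - θ‖ ≤ ε)
    (h : IsPadicForm f κ) : IsPadicForm (tSer (θ : ℚ_[p]) l f) κ := fun a => by
  obtain ⟨B, hB⟩ := h.exists_supLe
  obtain ⟨e, he⟩ := exists_pow_ge (p := p) B
  obtain ⟨b, hb⟩ := hθ _ (zpow_pos' (p := p) (-((a + e : ℕ) : ℤ)))
  obtain ⟨k, S, hk, hS, hn, hd⟩ := h.approx_large h5 (max a b) 1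
  refine ⟨k, _, isRatForm_tSer hl hS hk, hn.mono (le_max_left _ _), fun n => ?_⟩
  have h1 := supLe_tSer (θ := (l : ℤ_[p]) ^ (k - 1)) (l := l)
    (hd.mono (pow_neg_mono (le_max_left a b))) n
  rw [map_sub, map_sub, coeff_tSer, coeff_tSer, coeff_toQp, coeff_toQp, PadicInt.coe_pow,
    PadicInt.coe_natCast] at h1
  rw [map_sub, coeff_toQp, coeff_tSer, coeff_tSer]
  split_ifs at h1 ⊢ with hd'
  · have e1 : ((coeff (n * l) S + (l : ℚ) ^ (k - 1) * coeff (n / l) S : ℚ) : ℚ_[p]) -
        (coeff (n * l) f + (θ : ℚ_[p]) * coeff (n / l) f) =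
        (((coeff (n * l) S : ℚ) : ℚ_[p]) + (l : ℚ_[p]) ^ (k - 1) * ((coeff (n / l) S : ℚ) : ℚ_[p]) -
          (coeff (n * l) f + (l : ℚ_[p]) ^ (k - 1) * coeff (n / l) f)) +
        (((l : ℤ_[p]) ^ (k - 1) - θ : ℤ_[p]) : ℚ_[p]) * coeff (n / l) f := by
      push_cast
      ring
    rw [e1]
    refine (Padic.nonarchimedean _ _).trans (max_le h1 ?_)
    rw [norm_mul, ← PadicInt.norm_def]
    refine (mul_le_mul (hb k hk (hn.mono (le_max_right _ _))) ((hB _).trans he) (norm_nonneg _)
      (zpow_pos' _).le).trans (le_of_eq ?_)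
    rw [← zpow_add₀ (zero_lt_one.trans (one_lt_cast (p := p))).ne']
    push_cast
    ring_nf
  · simpa using h1

/-- **`T_l` commutes with `e`.** -/
theorem ordProj_tSer (h5 : 5 ≤ p) (hl : l.Prime) (hlp : l ≠ p) (h : IsPadicForm f κ) :
    ordProj p (tSer (θ : ℚ_[p]) l f) = tSer (θ : ℚ_[p]) l (ordProj p f) := by
  refine ordProj_eq fun ε hε => ?_
  filter_upwards [(ordProj_spec h5 h).1 ε hε] with i hi
  rw [← tSer_uPow _ hl hlp, ← map_sub]
  exact supLe_tSer hi

end FA.LambdaHecke

end
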